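import Fermat.Agent.AdditiveDistribution.Periodic
import Mathlib.Combinatorics.SetFamily.LYM
import Mathlib.Data.Nat.Choose.Central

/-!
# Antichains of toggles

If additive `f` has `f p > 2 δ` at the primes of a finite set `P` with large `∑ 1 / p`, then an
interval of length `2 δ` holds little of the weight: the sets of primes of `P` dividing such
numbers exactly once form antichains, small by Sperner's theorem.
-/

set_option autoImplicit false

noncomputable section

namespace FA.AdditiveDistribution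

open Finset Filter
open scoped Topology Classical

/-- `C (2 j, j) ^ 2 (2 j + 1) ≤ 16 ^ j`. -/
theorem centralBinom_sq_le (j : ℕ) : Nat.centralBinom j ^ 2 * (2 * j + 1) ≤ 16 ^ j := by
  induction j with
  | zero => simp
  | succ j ih =>
    have h := Nat.succ_mul_centralBinom_succ j
    refine Nat.le_of_mul_le_mul_left ?_ (show 0 < (j + 1) ^ 2 by positivity)
    have e : (j + 1) ^ 2 * (Nat.centralBinom (j + 1) ^ 2 * (2 * (j + 1) + 1)) =
        ((j + 1) * Nat.centralBinom (j + 1)) ^ 2 * (2 * (j + 1) + 1) := by ring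
    rw [e, h, pow_succ]
    calc (2 * (2 * j + 1) * Nat.centralBinom j) ^ 2 * (2 * (j + 1) + 1)
        = 4 * ((2 * j + 1) * (2 * (j + 1) + 1)) * (Nat.centralBinom j ^ 2 * (2 * j + 1)) := by ring
      _ ≤ 4 * (4 * (j + 1) ^ 2) * 16 ^ j := Nat.mul_le_mul (by nlinarith) ih
      _ = _ := by ring

/-- The middle binomial coefficient is `o (2 ^ t)`. -/
theorem exists_choose_middle_le {ε : ℝ} (hε : 0 < ε) :
    ∃ K : ℕ, ∀ t, K ≤ t → (t.choose (t / 2) : ℝ) ≤ ε * 2 ^ t := by
  obtain ⟨J, hJ⟩ := exists_nat_gt (1 / ε ^ 2)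
  have hev : ∀ j, J ≤ j → (Nat.centralBinom j : ℝ) ≤ ε * 4 ^ j := by
    intro j hj
    refine (sq_le_sq₀ (Nat.cast_nonneg _) (by positivity)).1 ?_
    have h : (Nat.centralBinom j : ℝ) ^ 2 * (2 * j + 1) ≤ (16 : ℝ) ^ j := by
      exact_mod_cast centralBinom_sq_le j
    have hj' : 1 / ε ^ 2 ≤ 2 * (j : ℝ) + 1 := by
      have : (J : ℝ) ≤ j := Nat.cast_le.2 hj
      linarith
    rw [div_le_iff₀ (by positivity)] at hj'
    have e : (ε * 4 ^ j) ^ 2 = ε ^ 2 * (16 : ℝ) ^ j := by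
      rw [mul_pow, ← pow_mul, mul_comm j 2, pow_mul]
      norm_num
    rw [e]
    refine le_of_mul_le_mul_right ?_ (show (0 : ℝ) < 2 * j + 1 by positivity)
    nlinarith [mul_le_mul_of_nonneg_left hj' (show (0 : ℝ) ≤ 16 ^ j by positivity)]
  refine ⟨2 * J + 1, fun t ht => ?_⟩
  rcases Nat.even_or_odd' t with ⟨j, rfl | rfl⟩
  · rw [Nat.mul_div_cancel_left j two_pos, ← Nat.centralBinom_eq_two_mul_choose, pow_mul]
    norm_num
    exact hev j (by omega)
  · rw [show (2 * j + 1) / 2 = j by omega]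
    have h2 : 2 * (2 * j + 1).choose j = Nat.centralBinom (j + 1) := by
      rw [Nat.centralBinom_eq_two_mul_choose, show 2 * (j + 1) = (2 * j + 1) + 1 by ring,
        Nat.choose_succ_succ' (2 * j + 1) j, ← Nat.choose_symm_half j, two_mul]
    have h := hev (j + 1) (by omega)
    rw [← h2] at h
    push_cast at h
    have e : (4 : ℝ) ^ (j + 1) = 2 * 2 ^ (2 * j + 1) := by
      rw [pow_succ, pow_succ, pow_mul]
      norm_num
      ring
    rw [e] at h
    linarith

theorem card_antichain_le {ι : Type*} {T : Finset ι} {𝒜 : Finset (Finset ι)}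
    (hsub : ∀ S ∈ 𝒜, S ⊆ T) (hanti : ∀ S ∈ 𝒜, ∀ S' ∈ 𝒜, S ⊆ S' → S = S') :
    #𝒜 ≤ (#T).choose (#T / 2) := by
  have key : ∀ S ∈ 𝒜, ∀ S' ∈ 𝒜, S.subtype (· ∈ T) ⊆ S'.subtype (· ∈ T) → S ⊆ S' := by
    intro S hS S' _ h x hx
    have := h (mem_subtype.2 hx : (⟨x, hsub S hS hx⟩ : {x // x ∈ T}) ∈ S.subtype (· ∈ T))
    exact mem_subtype.1 this
  have h := IsAntichain.sperner (𝒜 := 𝒜.image fun S => S.subtype (· ∈ T)) (by
    intro a ha b hb hne hab
    simp only [SetLike.mem_coe, mem_image] at ha hb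
    obtain ⟨S, hS, rfl⟩ := ha
    obtain ⟨S', hS', rfl⟩ := hb
    exact hne (by rw [hanti S hS S' hS' (key S hS S' hS' hab)]))
  rw [card_image_of_injOn ?_, Fintype.card_coe] at h
  · exact h
  · intro S hS S' hS' he
    exact hanti S hS S' hS' (key S hS S' hS' (le_of_eq he))

/-- An antichain of subsets of `P` has little of the weight `∏ 1 / p`. -/
theorem sum_antichain_le {ε : ℝ} (hε : 0 < ε) :
    ∃ K : ℕ, ∀ (P : Finset ℕ) (x : ℕ → ℝ), (∀ p ∈ P, 0 ≤ x p ∧ x p ≤ 1) →
      ∀ 𝒜 : Finset (Finset ℕ), (∀ S ∈ 𝒜, S ⊆ P) → (∀ S ∈ 𝒜, ∀ S' ∈ 𝒜, S ⊆ S' → S = S') →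
        ∑ S ∈ 𝒜, ∏ p ∈ S, x p ≤ ε * ∏ p ∈ P, (1 + x p) + 2 ^ K := by
  obtain ⟨K, hK⟩ := exists_choose_middle_le hε
  refine ⟨K, fun P x hx 𝒜 hsub hanti => ?_⟩
  obtain ⟨c, hc⟩ : ∃ c : Finset ℕ → ℝ,
      c = fun T => (∏ p ∈ T, x p) * ∏ p ∈ P \ T, (1 - x p) := ⟨_, rfl⟩
  have hc0 : ∀ T ∈ P.powerset, 0 ≤ c T := fun T hT => hc ▸ mul_nonneg
    (prod_nonneg fun p hp => (hx p (mem_powerset.1 hT hp)).1)
    (prod_nonneg fun p hp => sub_nonneg.2 (hx p (mem_sdiff.1 hp).1).2)
  have hexp : ∀ S ∈ 𝒜, ∏ p ∈ S, x p = ∑ T ∈ P.powerset, if S ⊆ T then c T else 0 := by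
    intro S hS
    rw [← sum_filter]
    calc ∏ p ∈ S, x p = (∏ p ∈ S, x p) * ∏ p ∈ P \ S, (x p + (1 - x p)) := by
          simp
      _ = ∑ U ∈ (P \ S).powerset,
            (∏ p ∈ S, x p) * ((∏ p ∈ U, x p) * ∏ p ∈ (P \ S) \ U, (1 - x p)) := by
          rw [prod_add, mul_sum]
      _ = _ := by
          refine sum_nbij' (fun U => S ∪ U) (fun T => T \ S) ?_ ?_ ?_ ?_ ?_
          · intro U hU
            rw [mem_powerset] at hU
            exact mem_filter.2 ⟨mem_powerset.2 (union_subset (hsub S hS)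
              (hU.trans sdiff_subset)), subset_union_left⟩
          · intro T hT
            rw [mem_filter, mem_powerset] at hT
            exact mem_powerset.2 (sdiff_subset_sdiff hT.1 le_rfl)
          · intro U hU
            rw [mem_powerset] at hU
            exact union_sdiff_cancel_left (disjoint_sdiff.mono_right hU)
          · intro T hT
            rw [mem_filter] at hT
            exact union_sdiff_of_subset hT.2
          · intro U hU
            rw [mem_powerset] at hU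
            rw [hc]
            simp only
            rw [prod_union (disjoint_sdiff.mono_right hU),
              show P \ (S ∪ U) = (P \ S) \ U from sdiff_sdiff_left.symm, mul_assoc]
  rw [sum_congr rfl hexp, sum_comm]
  have hterm : ∀ T ∈ P.powerset, (∑ S ∈ 𝒜, if S ⊆ T then c T else 0) ≤
      (∏ p ∈ T, (2 * x p)) * (∏ p ∈ P \ T, (1 - x p)) * ε +
        2 ^ K * ((∏ p ∈ T, x p) * ∏ p ∈ P \ T, (1 - x p)) := by
    intro T hT
    rw [← sum_filter, sum_const, nsmul_eq_mul, prod_mul_distrib, prod_const]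
    have hcard : (#(𝒜.filter (· ⊆ T)) : ℝ) ≤ (#T).choose (#T / 2) :=
      Nat.cast_le.2 (card_antichain_le (fun S hS => (mem_filter.1 hS).2)
        fun S hS S' hS' => hanti S (mem_filter.1 hS).1 S' (mem_filter.1 hS').1)
    have hchoose : ((#T).choose (#T / 2) : ℝ) ≤ ε * 2 ^ #T + 2 ^ K := by
      rcases Nat.lt_or_ge #T K with h | h
      · refine le_add_of_nonneg_of_le (by positivity) ?_
        exact_mod_cast (Nat.choose_le_two_pow _ _).trans (Nat.pow_le_pow_right two_pos h.le)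
      · exact (hK _ h).trans (le_add_of_nonneg_right (by positivity))
    refine (mul_le_mul_of_nonneg_right (hcard.trans hchoose) (hc0 T hT)).trans (le_of_eq ?_)
    rw [hc]
    ring
  refine (sum_le_sum hterm).trans (le_of_eq ?_)
  rw [sum_add_distrib, ← sum_mul, ← mul_sum, ← prod_add, ← prod_add, mul_comm ε]
  congr 1
  · congr 1
    exact prod_congr rfl fun p _ => by ring
  · simp

theorem prime_mem_of_dvd_primeProd {S : Finset ℕ} (hS : ∀ p ∈ S, p.Prime) {q : ℕ} (hq : q.Prime)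
    (h : q ∣ ∏ p ∈ S, p) : q ∈ S := by
  obtain ⟨p, hp, hqp⟩ := (hq.prime.dvd_finsetProd_iff _).1 h
  exact (Nat.prime_dvd_prime_iff_eq hq (hS p hp)).1 hqp ▸ hp

/-- The weight where no square of `P` divides and `f` is within `δ` of `z`. -/
theorem exists_window_bound {ε : ℝ} (hε : 0 < ε) :
    ∃ B : ℝ, ∀ (f : ℕ → ℝ), (∀ m n, m ≠ 0 → n ≠ 0 → Nat.Coprime m n → f (m * n) = f m + f n) →
      ∀ (P : Finset ℕ), (∀ p ∈ P, p.Prime) → B ≤ ∑ p ∈ P, (p : ℝ)⁻¹ →
      ∀ (δ z : ℝ), (∀ p ∈ P, 2 * δ < f p) → ∀ M : ℕ, M ≠ 0 → (∀ p ∈ P, p ^ 2 ∣ M) →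
        divWeight M (fun d => |f d - z| ≤ δ ∧ ∀ p ∈ P, ¬ p ^ 2 ∣ d) ≤ ε := by
  obtain ⟨K, hK⟩ := sum_antichain_le (half_pos hε)
  refine ⟨2 ^ K * 2 / ε, fun f hadd P hP hB δ z hgap M hM hPM => ?_⟩
  obtain ⟨W, hW⟩ : ∃ W, W = M.divisors.filter
      fun d => |f d - z| ≤ δ ∧ ∀ p ∈ P, ¬ p ^ 2 ∣ d := ⟨_, rfl⟩
  obtain ⟨R, hR⟩ : ∃ R, R = M.divisors.filter fun m => ∀ p ∈ P, ¬ p ∣ m := ⟨_, rfl⟩
  obtain ⟨sup, hsup⟩ : ∃ sup : ℕ → Finset ℕ, sup = fun d => P.filter (· ∣ d) := ⟨_, rfl⟩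
  obtain ⟨core, hcore⟩ : ∃ core : ℕ → ℕ, core = fun d => d / ∏ p ∈ sup d, p := ⟨_, rfl⟩
  have hsupP : ∀ d, ∀ p ∈ sup d, p.Prime := fun d p hp => hP p (by
    rw [hsup] at hp; exact (mem_filter.1 hp).1)
  have hsupdvd : ∀ d, ∏ p ∈ sup d, p ∣ d := fun d =>
    prod_primes_dvd _ (fun p hp => (hsupP d p hp).prime) fun p hp => by
      rw [hsup] at hp; exact (mem_filter.1 hp).2
  have hdec : ∀ d, core d * ∏ p ∈ sup d, p = d := fun d => by
    rw [hcore]; exact Nat.div_mul_cancel (hsupdvd d)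
  have hcoreR : ∀ d ∈ W, core d ∈ R := by
    intro d hd
    rw [hW, mem_filter, Nat.mem_divisors] at hd
    rw [hR, mem_filter, Nat.mem_divisors]
    have hdvd : core d ∣ d := ⟨_, (hdec d).symm⟩
    refine ⟨⟨hdvd.trans hd.1.1, hM⟩, fun p hp hpc => hd.2.2 p hp ?_⟩
    have hps : p ∈ sup d := by rw [hsup]; exact mem_filter.2 ⟨hp, hpc.trans hdvd⟩
    rw [sq, ← hdec d]
    exact mul_dvd_mul hpc (dvd_prod_of_mem (fun q : ℕ => q) hps)
  have hphi : ∀ (S : Finset ℕ), S ⊆ P → ∀ m ∈ R,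
      (Nat.totient (M / (m * ∏ p ∈ S, p)) : ℝ) =
        Nat.totient (M / m) * ∏ p ∈ S, (p : ℝ)⁻¹ := by
    intro S hSP m hm
    rw [hR, mem_filter, Nat.mem_divisors] at hm
    induction S using Finset.induction_on with
    | empty => simp
    | insert p S hp ih =>
      have hpP := hSP (mem_insert_self p S)
      have hSP' : S ⊆ P := (subset_insert p S).trans hSP
      have hpp := hP p hpP
      rw [prod_insert hp, prod_insert hp,
        show (Nat.totient (M / m) : ℝ) * ((p : ℝ)⁻¹ * ∏ q ∈ S, (q : ℝ)⁻¹) =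
          (p : ℝ)⁻¹ * (Nat.totient (M / m) * ∏ q ∈ S, (q : ℝ)⁻¹) by ring, ← ih hSP',
        show m * (p * ∏ q ∈ S, q) = (m * ∏ q ∈ S, q) * p by ring, ← Nat.div_div_eq_div_mul]
      obtain ⟨D, hD⟩ : ∃ D, D = m * ∏ q ∈ S, q := ⟨_, rfl⟩
      rw [← hD]
      have hpD : ¬ p ∣ D := fun h => by
        rcases (Nat.Prime.dvd_mul hpp).1 (hD ▸ h) with h' | h'
        · exact hm.2 p hpP h'
        · exact hp (prime_mem_of_dvd_primeProd (fun q hq => hP q (hSP' hq)) hpp h')
      have hDM : D ∣ M := by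
        rw [hD]
        refine Nat.Coprime.mul_dvd_of_dvd_of_dvd ?_ hm.1.1 (prod_primes_dvd _
          (fun q hq => (hP q (hSP' hq)).prime)
          fun q hq => (dvd_pow_self q two_ne_zero).trans (hPM q (hSP' hq)))
        exact Nat.Coprime.prod_right fun q hq => Nat.Coprime.symm
          ((hP q (hSP' hq)).coprime_iff_not_dvd.2 (hm.2 q (hSP' hq)))
      have hp2 : p ^ 2 ∣ M / D := by
        refine Nat.dvd_div_of_mul_dvd (Nat.Coprime.mul_dvd_of_dvd_of_dvd ?_ hDM (hPM p hpP))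
        exact Nat.Coprime.pow_right 2 (Nat.Coprime.symm (hpp.coprime_iff_not_dvd.2 hpD))
      obtain ⟨k, hk⟩ := hp2
      rw [hk, sq, mul_assoc, Nat.mul_div_cancel_left _ hpp.pos,
        Nat.totient_mul_of_prime_of_dvd hpp (dvd_mul_right p k)]
      have : (p : ℝ) ≠ 0 := Nat.cast_ne_zero.2 hpp.ne_zero
      push_cast
      field_simp
  have hR0 : ∀ m ∈ R, m ≠ 0 := fun m hm => by
    rw [hR, mem_filter, Nat.mem_divisors] at hm
    exact fun h => hm.1.2 (Nat.eq_zero_of_zero_dvd (h ▸ hm.1.1))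
  obtain ⟨Q, hQ⟩ : ∃ Q : ℝ, Q = ∏ p ∈ P, (1 + (p : ℝ)⁻¹) := ⟨_, rfl⟩
  have hQB : 2 ^ K ≤ ε / 2 * Q := by
    have h1 : ∑ p ∈ P, (p : ℝ)⁻¹ ≤ Q := by
      have h := Finset.prod_one_add (f := fun p : ℕ => (p : ℝ)⁻¹) P
      rw [hQ, h]
      refine le_trans (le_of_eq ?_) (sum_le_sum_of_subset_of_nonneg
        (s := P.image fun p => ({p} : Finset ℕ))
        (fun T hT => ?_) fun T _ _ => by positivity)
      · rw [sum_image fun a _ b _ e => singleton_injective e]
        simp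
      · obtain ⟨p, hp, rfl⟩ := mem_image.1 hT
        exact mem_powerset.2 (singleton_subset_iff.2 hp)
    have := hB.trans h1
    rw [div_le_iff₀ hε] at this
    linarith
  have hgroup : ∀ m ∈ R, ∑ d ∈ W.filter (fun d => core d = m), (Nat.totient (M / d) : ℝ) ≤
      ε * (Nat.totient (M / m) * Q) := by
    intro m hm
    obtain ⟨𝒜, h𝒜⟩ : ∃ 𝒜, 𝒜 = (W.filter fun d => core d = m).image sup := ⟨_, rfl⟩
    have hinj : ∀ d ∈ W.filter (fun d => core d = m), ∀ d' ∈ W.filter (fun d => core d = m),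
        sup d = sup d' → d = d' := by
      intro d hd d' hd' he
      rw [← hdec d, ← hdec d', (mem_filter.1 hd).2, (mem_filter.1 hd').2, he]
    have hsub : ∀ S ∈ 𝒜, S ⊆ P := fun S hS => by
      rw [h𝒜, mem_image] at hS
      obtain ⟨d, -, rfl⟩ := hS
      rw [hsup]
      exact filter_subset _ _
    have hval : ∀ d ∈ W.filter (fun d => core d = m), f d = f m + ∑ p ∈ sup d, f p := by
      intro d hd
      have hd2 := (mem_filter.1 hd).2
      have key : ∀ S : Finset ℕ, S ⊆ P → f (m * ∏ p ∈ S, p) = f m + ∑ p ∈ S, f p := by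
        intro S hSP
        induction S using Finset.induction_on with
        | empty => simp
        | insert p S hp ih =>
          have hpp := hP p (hSP (mem_insert_self p S))
          have hSP' : S ⊆ P := (subset_insert p S).trans hSP
          have hne : m * ∏ q ∈ S, q ≠ 0 :=
            mul_ne_zero (hR0 m hm) (prod_ne_zero_iff.2 fun q hq => (hP q (hSP' hq)).ne_zero)
          have hndvd : ¬ p ∣ m * ∏ q ∈ S, q := fun h => by
            rcases (Nat.Prime.dvd_mul hpp).1 h with h' | h'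
            · rw [hR, mem_filter] at hm
              exact hm.2 p (hSP (mem_insert_self p S)) h'
            · exact hp (prime_mem_of_dvd_primeProd (fun q hq => hP q (hSP' hq)) hpp h')
          rw [prod_insert hp, sum_insert hp,
            show m * (p * ∏ q ∈ S, q) = p * (m * ∏ q ∈ S, q) by ring,
            hadd p _ hpp.ne_zero hne (hpp.coprime_iff_not_dvd.2 hndvd), ih hSP']
          ring
      have h := key (sup d) (by rw [hsup]; exact filter_subset _ _)
      rwa [← hd2, hdec d, hd2] at h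
    have hanti : ∀ S ∈ 𝒜, ∀ S' ∈ 𝒜, S ⊆ S' → S = S' := by
      intro S hS S' hS' hss
      rw [h𝒜, mem_image] at hS hS'
      obtain ⟨d, hd, rfl⟩ := hS
      obtain ⟨d', hd', rfl⟩ := hS'
      by_contra hne
      obtain ⟨p, hp, hpn⟩ := exists_of_ssubset (hss.ssubset_of_ne hne)
      have hWd := (mem_filter.1 (hW ▸ (mem_filter.1 hd).1)).2.1
      have hWd' := (mem_filter.1 (hW ▸ (mem_filter.1 hd').1)).2.1
      rw [hval d hd, abs_le] at hWd
      rw [hval d' hd', abs_le] at hWd'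
      have hpos : ∀ q ∈ sup d', 0 ≤ f q := fun q hq => by
        have h1 := hgap q (by rw [hsup] at hq; exact (mem_filter.1 hq).1)
        linarith
      have h2 : ∑ q ∈ sup d, f q + f p ≤ ∑ q ∈ sup d', f q := by
        rw [add_comm, ← sum_insert hpn]
        exact sum_le_sum_of_subset_of_nonneg (insert_subset hp hss) fun q hq _ => hpos q hq
      have := hgap p (by rw [hsup] at hp; exact (mem_filter.1 hp).1)
      linarith
    calc ∑ d ∈ W.filter (fun d => core d = m), (Nat.totient (M / d) : ℝ)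
        = ∑ d ∈ W.filter (fun d => core d = m),
            (Nat.totient (M / m) : ℝ) * ∏ p ∈ sup d, (p : ℝ)⁻¹ := by
          refine sum_congr rfl fun d hd => ?_
          rw [← hphi (sup d) (by rw [hsup]; exact filter_subset _ _) m hm,
            ← (mem_filter.1 hd).2, hdec d]
      _ = (Nat.totient (M / m) : ℝ) * ∑ S ∈ 𝒜, ∏ p ∈ S, (p : ℝ)⁻¹ := by
          rw [← mul_sum, h𝒜, sum_image hinj]
      _ ≤ (Nat.totient (M / m) : ℝ) * (ε / 2 * Q + 2 ^ K) := by
          refine mul_le_mul_of_nonneg_left ?_ (Nat.cast_nonneg _)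
          rw [hQ]
          exact hK P _ (fun p _ => ⟨by positivity, Nat.cast_inv_le_one p⟩) 𝒜 hsub hanti
      _ ≤ (Nat.totient (M / m) : ℝ) * (ε * Q) := by
          refine mul_le_mul_of_nonneg_left ?_ (Nat.cast_nonneg _)
          linarith
      _ = _ := by ring
  have htotal : ∑ m ∈ R, (Nat.totient (M / m) : ℝ) * Q ≤ M := by
    have hpow : ∀ m ∈ R, (Nat.totient (M / m) : ℝ) * Q =
        ∑ S ∈ P.powerset, (Nat.totient (M / (m * ∏ p ∈ S, p)) : ℝ) := by
      intro m hm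
      rw [hQ, Finset.prod_one_add, mul_sum]
      exact sum_congr rfl fun S hS => (hphi S (mem_powerset.1 hS) m hm).symm
    rw [sum_congr rfl hpow, ← sum_product']
    refine le_trans (le_of_eq (sum_image (g := fun z : ℕ × Finset ℕ => z.1 * ∏ p ∈ z.2, p)
      (f := fun d => (Nat.totient (M / d) : ℝ)) ?_).symm) ?_
    rotate_left
    · refine le_trans (sum_le_sum_of_subset_of_nonneg (t := M.divisors) (fun d hd => ?_)
        fun _ _ _ => Nat.cast_nonneg _) (le_of_eq ?_)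
      · obtain ⟨⟨m, S⟩, hz, rfl⟩ := mem_image.1 hd
        rw [mem_product, mem_powerset] at hz
        rw [hR, mem_filter, Nat.mem_divisors] at hz
        refine Nat.mem_divisors.2 ⟨Nat.Coprime.mul_dvd_of_dvd_of_dvd ?_ hz.1.1.1 ?_, hM⟩
        · exact Nat.Coprime.prod_right fun q hq => Nat.Coprime.symm
            ((hP q (hz.2 hq)).coprime_iff_not_dvd.2 (hz.1.2 q (hz.2 hq)))
        · exact prod_primes_dvd _ (fun q hq => (hP q (hz.2 hq)).prime)
            fun q hq => (dvd_pow_self q two_ne_zero).trans (hPM q (hz.2 hq))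
      · rw [← Nat.cast_sum, Nat.sum_div_divisors, Nat.sum_totient]
    · rintro ⟨m, S⟩ hz ⟨m', S'⟩ hz' he
      simp only [mem_coe, mem_product, mem_powerset] at hz hz'
      simp only at he
      have hiff : ∀ (m : ℕ) (S : Finset ℕ), m ∈ R → S ⊆ P → ∀ p ∈ P,
          (p ∣ m * ∏ q ∈ S, q ↔ p ∈ S) := by
        intro m S hm hS p hp
        refine ⟨fun h => ?_, fun h => dvd_mul_of_dvd_right (dvd_prod_of_mem (fun q : ℕ => q) h) m⟩
        rcases (Nat.Prime.dvd_mul (hP p hp)).1 h with h' | h'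
        · rw [hR, mem_filter] at hm
          exact absurd h' (hm.2 p hp)
        · exact prime_mem_of_dvd_primeProd (fun q hq => hP q (hS hq)) (hP p hp) h'
      obtain rfl : S = S' := Finset.ext fun p => ⟨fun h => (hiff m' S' hz'.1 hz'.2 p (hz.2 h)).1
          (he ▸ (hiff m S hz.1 hz.2 p (hz.2 h)).2 h), fun h => (hiff m S hz.1 hz.2 p (hz'.2 h)).1
          (he.symm ▸ (hiff m' S' hz'.1 hz'.2 p (hz'.2 h)).2 h)⟩
      exact Prod.ext (Nat.eq_of_mul_eq_mul_right
        (prod_pos fun p hp => (hP p (hz.2 hp)).pos) he) rfl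
  unfold divWeight
  rw [div_le_iff₀ (Nat.cast_pos.2 (Nat.pos_of_ne_zero hM))]
  refine le_trans (le_of_eq (b := ∑ d ∈ W, (Nat.totient (M / d) : ℝ)) ?_) ?_
  · rw [hW]
    refine sum_congr (Finset.ext fun d => ?_) fun _ _ => rfl
    simp only [mem_filter]
  rw [← sum_fiberwise_of_maps_to hcoreR]
  refine (sum_le_sum hgroup).trans ?_
  rw [← mul_sum]
  exact mul_le_mul_of_nonneg_left htotal hε.le

end FA.AdditiveDistribution
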