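import Fermat.Agent.AdditiveDistribution.Periodic
import Mathlib.Analysis.PSeries
import Mathlib.NumberTheory.Primorial

/-!
# Truncations of an additive function

For additive `f ≥ 0` with `∑ min (1, f p) / p < ∞`, outside a set of small density `f n` is close
to `f (gcd (n, M))` for all multiples `M` of a suitable `M₀`.
-/

set_option autoImplicit false

noncomputable section

namespace FA.AdditiveDistribution

open Finset Filter
open scoped Topology Classical

/-- The term `min (1, f p) / p`. -/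
def primeTerm (f : ℕ → ℝ) (n : ℕ) : ℝ := if n.Prime then min 1 (f n) / n else 0

theorem primeTerm_nonneg {f : ℕ → ℝ} (h0 : ∀ n, 0 ≤ f n) (n : ℕ) : 0 ≤ primeTerm f n := by
  unfold primeTerm
  split_ifs
  · exact div_nonneg (le_min zero_le_one (h0 n)) (Nat.cast_nonneg n)
  · exact le_rfl

theorem eq_zero_one {f : ℕ → ℝ}
    (hadd : ∀ m n, m ≠ 0 → n ≠ 0 → Nat.Coprime m n → f (m * n) = f m + f n) : f 1 = 0 := by
  have h := hadd 1 1 one_ne_zero one_ne_zero (Nat.coprime_one_left 1)
  rw [mul_one] at h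
  linarith

theorem sum_primes_eq {f : ℕ → ℝ}
    (hadd : ∀ m n, m ≠ 0 → n ≠ 0 → Nat.Coprime m n → f (m * n) = f m + f n) {S : Finset ℕ}
    (hS : ∀ p ∈ S, p.Prime) (e : ℕ → ℕ) :
    f (∏ p ∈ S, p ^ e p) = ∑ p ∈ S, f (p ^ e p) := by
  induction S using Finset.induction_on with
  | empty => simpa using eq_zero_one hadd
  | insert p S hp ih =>
    have hS' : ∀ q ∈ S, q.Prime := fun q hq => hS q (mem_insert_of_mem hq)
    have hpp := hS p (mem_insert_self p S)
    rw [prod_insert hp, sum_insert hp, hadd _ _ (pow_ne_zero _ hpp.ne_zero)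
      (prod_ne_zero_iff.2 fun q hq => pow_ne_zero _ (hS' q hq).ne_zero)
      (Nat.Coprime.prod_right fun q hq => Nat.Coprime.pow _ _
        ((Nat.coprime_primes hpp (hS' q hq)).2 fun h => hp (h ▸ hq))), ih hS']

theorem card_multiples_le (N : ℕ) (D : Finset ℕ) :
    (#((Icc 1 N).filter fun n => ∃ d ∈ D, d ∣ n) : ℝ) ≤ N * ∑ d ∈ D, (d : ℝ)⁻¹ := by
  calc (#((Icc 1 N).filter fun n => ∃ d ∈ D, d ∣ n) : ℝ)
      ≤ ((∑ d ∈ D, #((Icc 1 N).filter fun n => d ∣ n) : ℕ) : ℝ) := by
        refine Nat.cast_le.2 (le_trans (card_le_card fun n hn => ?_) card_biUnion_le)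
        rw [mem_filter] at hn
        obtain ⟨d, hd, hdn⟩ := hn.2
        exact mem_biUnion.2 ⟨d, hd, mem_filter.2 ⟨hn.1, hdn⟩⟩
    _ ≤ _ := by
        rw [mul_sum, Nat.cast_sum]
        refine sum_le_sum fun d _ => ?_
        rw [← div_eq_mul_inv]
        refine le_trans (le_of_eq ?_) Nat.cast_div_le
        rw [← Nat.Ioc_filter_dvd_card_eq_div N d]
        congr 2

theorem sum_inv_sq_Ioc_le {y : ℕ} (hy : 1 ≤ y) (N : ℕ) :
    ∑ d ∈ Ioc y N, ((d : ℝ) ^ 2)⁻¹ ≤ 1 / y := by
  rcases le_or_gt N y with h | h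
  · rw [Ioc_eq_empty (by omega), sum_empty]
    positivity
  · refine le_trans (sum_Ioc_inv_sq_le_sub (by omega) h.le) ?_
    rw [one_div]
    have : (0 : ℝ) ≤ (N : ℝ)⁻¹ := by positivity
    linarith

/-- **Truncation.** -/
theorem exists_truncation {f : ℕ → ℝ}
    (hadd : ∀ m n, m ≠ 0 → n ≠ 0 → Nat.Coprime m n → f (m * n) = f m + f n)
    (h0 : ∀ n, 0 ≤ f n) (hs : Summable (primeTerm f)) {ε δ : ℝ} (hε : 0 < ε) (hδ : 0 < δ) :
    ∃ M₀ : ℕ, M₀ ≠ 0 ∧ ∀ M : ℕ, M ≠ 0 → M₀ ∣ M → ∀ N : ℕ,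
      (#((Icc 1 N).filter fun n => δ < |f n - f (Nat.gcd n M)|) : ℝ) ≤ ε * N := by
  obtain ⟨η, hη⟩ : ∃ η, η = min δ (1 / 2) := ⟨_, rfl⟩
  have hη0 : 0 < η := hη ▸ lt_min hδ (by norm_num)
  obtain ⟨y, hy1, hy2, hy3⟩ : ∃ y : ℕ, 1 ≤ y ∧ 1 / (y : ℝ) ≤ ε / 3 ∧
      ∑' k, primeTerm f (k + (y + 1)) ≤ ε / 3 * η := by
    have e1 := tendsto_const_div_atTop_nhds_zero_nat (1 : ℝ)
    have e2 := (tendsto_sum_nat_add (primeTerm f)).comp (tendsto_add_atTop_nat 1)
    obtain ⟨y, hy⟩ := ((eventually_ge_atTop 1).and ((e1.eventually_le_const (by positivity :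
      (0 : ℝ) < ε / 3)).and (e2.eventually_le_const (by positivity : (0 : ℝ) < ε / 3 * η)))).exists
    exact ⟨y, hy⟩
  obtain ⟨k, hk⟩ : ∃ k : ℕ, (y : ℝ) * (1 / 2) ^ (k + 1) ≤ ε / 3 := by
    have h := ((tendsto_pow_atTop_nhds_zero_of_lt_one (show (0 : ℝ) ≤ 1 / 2 by norm_num)
      (by norm_num)).comp (tendsto_add_atTop_nat 1)).const_mul (y : ℝ)
    rw [mul_zero] at h
    exact (h.eventually_le_const (by positivity : (0 : ℝ) < ε / 3)).exists
  refine ⟨primorial y ^ k, pow_ne_zero _ (primorial_ne_zero y), fun M hM hdvd N => ?_⟩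
  obtain ⟨G, hG⟩ : ∃ G : ℕ → ℝ, G = fun n =>
      ∑ p ∈ (Ioc y N).filter fun p => p.Prime ∧ p ∣ n, min 1 (f p) := ⟨_, rfl⟩
  obtain ⟨D1, hD1⟩ : ∃ D1, D1 = ((Icc 1 y).filter Nat.Prime).image (fun p => p ^ (k + 1)) :=
    ⟨_, rfl⟩
  obtain ⟨D2, hD2⟩ : ∃ D2, D2 = (Ioc y N).image (fun p => p ^ 2) := ⟨_, rfl⟩
  have hgood : ∀ n ∈ Icc 1 N, ¬ (∃ d ∈ D1, d ∣ n) → ¬ (∃ d ∈ D2, d ∣ n) → G n ≤ η →
      |f n - f (Nat.gcd n M)| ≤ δ := by
    intro n hn h1 h2 hGn
    rw [mem_Icc] at hn
    have hn0 : n ≠ 0 := by omega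
    have hg0 : Nat.gcd n M ≠ 0 := fun h => hn0 (Nat.gcd_eq_zero_iff.1 h).1
    have hgdvd := Nat.gcd_dvd_left n M
    obtain ⟨S, hS⟩ : ∃ S, S = n.primeFactors := ⟨_, rfl⟩
    have hSp : ∀ p ∈ S, p.Prime := fun p hp => Nat.prime_of_mem_primeFactors (hS ▸ hp)
    have hfn : f n = ∑ p ∈ S, f (p ^ n.factorization p) := by
      conv_lhs => rw [← Nat.prod_factorization_pow_eq_self hn0]
      rw [hS]
      exact sum_primes_eq hadd (fun p hp => Nat.prime_of_mem_primeFactors hp) _
    have hfg : f (Nat.gcd n M) = ∑ p ∈ S, f (p ^ min (n.factorization p) (M.factorization p)) := by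
      have e : ∏ p ∈ S, p ^ (Nat.gcd n M).factorization p = Nat.gcd n M := by
        conv_rhs => rw [← Nat.prod_factorization_pow_eq_self hg0]
        refine (prod_subset (hS ▸ Nat.primeFactors_mono hgdvd hn0) fun p _ hp => ?_).symm
        rw [Finsupp.notMem_support_iff.1 (by rwa [Nat.support_factorization]), pow_zero]
      conv_lhs => rw [← e]
      rw [sum_primes_eq hadd hSp, Nat.factorization_gcd hn0 hM]
      simp only [Finsupp.inf_apply]
    rw [hfn, hfg, ← sum_sub_distrib]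
    refine (abs_sum_le_sum_abs _ _).trans ?_
    have hterm : ∀ p ∈ S, |f (p ^ n.factorization p) -
        f (p ^ min (n.factorization p) (M.factorization p))| ≤ if y < p then f p else 0 := by
      intro p hp
      have hpp := hSp p hp
      have hv : 0 < n.factorization p := hpp.factorization_pos_of_dvd hn0
        (Nat.dvd_of_mem_primeFactors (hS ▸ hp))
      split_ifs with hyp
      · have hv1 : n.factorization p = 1 := by
          by_contra h
          refine h2 ⟨p ^ 2, hD2 ▸ mem_image_of_mem _ (mem_Ioc.2 ⟨hyp, ?_⟩),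
            (hpp.pow_dvd_iff_le_factorization hn0).2 (by omega)⟩
          exact (Nat.le_of_dvd (by omega) (Nat.dvd_of_mem_primeFactors (hS ▸ hp))).trans hn.2
        rw [hv1]
        rcases Nat.eq_zero_or_pos (M.factorization p) with h | h
        · rw [h, Nat.min_zero, pow_one, pow_zero, eq_zero_one hadd, sub_zero, abs_of_nonneg (h0 p)]
        · rw [min_eq_left (by omega), pow_one, sub_self, abs_zero]
          exact h0 p
      · rw [min_eq_left, sub_self, abs_zero]
        refine le_trans ?_ ((hpp.pow_dvd_iff_le_factorization hM).1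
          ((pow_dvd_pow_of_dvd (hpp.dvd_primorial_iff.2 (not_lt.1 hyp)) k).trans hdvd))
        by_contra h
        exact h1 ⟨p ^ (k + 1), hD1 ▸ mem_image_of_mem _ (mem_filter.2
          ⟨mem_Icc.2 ⟨hpp.one_le, not_lt.1 hyp⟩, hpp⟩),
          (hpp.pow_dvd_iff_le_factorization hn0).2 (by omega)⟩
    refine (sum_le_sum hterm).trans ?_
    rw [← sum_filter]
    have hsub : S.filter (y < ·) = (Ioc y N).filter fun p => p.Prime ∧ p ∣ n := by
      ext p
      simp only [hS, mem_filter, mem_Ioc, Nat.mem_primeFactors]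
      constructor
      · rintro ⟨⟨h1, h2, -⟩, h3⟩
        exact ⟨⟨h3, (Nat.le_of_dvd (by omega) h2).trans hn.2⟩, h1, h2⟩
      · rintro ⟨⟨h3, -⟩, h1, h2⟩
        exact ⟨⟨h1, h2, hn0⟩, h3⟩
    rw [hsub]
    refine le_trans (le_of_eq (b := G n) ?_) (hGn.trans (hη ▸ min_le_left _ _))
    rw [hG]
    refine sum_congr rfl fun p hp => ?_
    have hle : min 1 (f p) ≤ η := by
      refine le_trans ?_ hGn
      rw [hG]
      exact single_le_sum (f := fun q => min 1 (f q)) (fun q _ => le_min zero_le_one (h0 q)) hp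
    rcases le_total 1 (f p) with h | h
    · rw [min_eq_left h, hη] at hle
      linarith [hle.trans (min_le_right δ (1 / 2 : ℝ))]
    · rw [min_eq_right h]
  have hG0 : ∀ n, 0 ≤ G n := fun n => by
    rw [hG]
    exact sum_nonneg fun p _ => le_min zero_le_one (h0 p)
  have hb1 : (#((Icc 1 N).filter fun n => ∃ d ∈ D1, d ∣ n) : ℝ) ≤ ε / 3 * N := by
    refine (card_multiples_le N D1).trans ?_
    rw [mul_comm]
    refine mul_le_mul_of_nonneg_right (le_trans ?_ hk) (Nat.cast_nonneg N)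
    rw [hD1]
    refine le_trans (sum_image_le_of_nonneg fun d _ => by positivity) ?_
    calc ∑ p ∈ (Icc 1 y).filter Nat.Prime, ((p ^ (k + 1) : ℕ) : ℝ)⁻¹
        ≤ ∑ _p ∈ (Icc 1 y).filter Nat.Prime, (1 / 2 : ℝ) ^ (k + 1) := by
          refine sum_le_sum fun p hp => ?_
          push_cast
          rw [← inv_pow]
          refine pow_le_pow_left₀ (by positivity) ?_ _
          rw [one_div]
          exact inv_anti₀ two_pos (by exact_mod_cast (mem_filter.1 hp).2.two_le)
      _ ≤ _ := by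
          rw [sum_const, nsmul_eq_mul]
          refine mul_le_mul_of_nonneg_right ?_ (by positivity)
          exact Nat.cast_le.2 ((card_filter_le _ _).trans (by simp))
  have hb2 : (#((Icc 1 N).filter fun n => ∃ d ∈ D2, d ∣ n) : ℝ) ≤ ε / 3 * N := by
    refine (card_multiples_le N D2).trans ?_
    rw [mul_comm]
    refine mul_le_mul_of_nonneg_right (le_trans ?_ ((sum_inv_sq_Ioc_le hy1 N).trans hy2))
      (Nat.cast_nonneg N)
    rw [hD2]
    refine le_trans (sum_image_le_of_nonneg fun d _ => by positivity) (le_of_eq ?_)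
    push_cast
    rfl
  have hb3 : (#((Icc 1 N).filter fun n => η < G n) : ℝ) ≤ ε / 3 * N := by
    refine le_of_mul_le_mul_right ?_ hη0
    calc (#((Icc 1 N).filter fun n => η < G n) : ℝ) * η
        ≤ ∑ n ∈ (Icc 1 N).filter (fun n => η < G n), G n := by
          rw [← nsmul_eq_mul, ← sum_const]
          exact sum_le_sum fun n hn => (mem_filter.1 hn).2.le
      _ ≤ ∑ n ∈ Icc 1 N, G n :=
          sum_le_sum_of_subset_of_nonneg (filter_subset _ _) fun n _ _ => hG0 n
      _ = ∑ p ∈ (Ioc y N).filter Nat.Prime, ((N / p : ℕ) : ℝ) * min 1 (f p) := by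
          simp only [hG, sum_filter]
          rw [sum_comm]
          refine sum_congr rfl fun p _ => ?_
          by_cases hp : p.Prime
          · simp only [hp, true_and, if_true]
            rw [← sum_filter, sum_const, nsmul_eq_mul, ← Nat.Ioc_filter_dvd_card_eq_div N p]
            congr 3
          · simp [hp]
      _ ≤ ∑ p ∈ Ioc y N, (N : ℝ) * primeTerm f p := by
          rw [sum_filter]
          refine sum_le_sum fun p _ => ?_
          unfold primeTerm
          split_ifs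
          · rw [mul_div_assoc', div_eq_mul_inv ((N : ℝ) * _), mul_right_comm, ← div_eq_mul_inv]
            exact mul_le_mul_of_nonneg_right Nat.cast_div_le (le_min zero_le_one (h0 p))
          · rw [mul_zero]
      _ ≤ (N : ℝ) * (ε / 3 * η) := by
          rw [← mul_sum]
          refine mul_le_mul_of_nonneg_left (le_trans ?_ hy3) (Nat.cast_nonneg N)
          rw [show Ioc y N = Ico (y + 1) (N + 1) from Finset.ext fun j => by
            simp only [mem_Ioc, mem_Ico]; omega, sum_Ico_eq_sum_range]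
          simp only [add_comm (y + 1)]
          exact ((summable_nat_add_iff (y + 1)).2 hs).sum_le_tsum _
            fun j _ => primeTerm_nonneg h0 _
      _ = ε / 3 * N * η := by ring
  have hsub : ((Icc 1 N).filter fun n => δ < |f n - f (Nat.gcd n M)|) ⊆
      ((Icc 1 N).filter fun n => ∃ d ∈ D1, d ∣ n) ∪ ((Icc 1 N).filter fun n => ∃ d ∈ D2, d ∣ n) ∪
        ((Icc 1 N).filter fun n => η < G n) := by
    intro n hn
    rw [mem_filter] at hn
    simp only [mem_union, mem_filter, hn.1, true_and]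
    by_contra h
    simp only [not_or, not_lt] at h
    exact (not_le.2 hn.2) (hgood n hn.1 h.1.1 h.1.2 h.2)
  refine (Nat.cast_le.2 ((card_le_card hsub).trans ((card_union_le _ _).trans
    (Nat.add_le_add_right (card_union_le _ _) _)))).trans ?_
  push_cast
  linarith

end FA.AdditiveDistribution
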