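import Fermat.Agent.AdditiveDistribution.AntiConcentration
import Fermat.Agent.AdditiveDistribution.Truncation

/-!
# The theorem of Erdős on additive functions

Additive `f ≥ 0` with `∑ min (1, f p) / p < ∞` and `∑_{f p ≠ 0} 1 / p = ∞` has a continuous
distribution: the density of `{n : x ≤ f n}` exists for every `x` and is continuous in `x`.
-/

set_option autoImplicit false

noncomputable section

namespace FA.AdditiveDistribution

open Finset Filter
open scoped Topology Classical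

/-- The indicator of the primes with `f p ≠ 0`, times `1 / p`. -/
def supportTerm (f : ℕ → ℝ) (n : ℕ) : ℝ := if n.Prime ∧ f n ≠ 0 then (n : ℝ)⁻¹ else 0

/-- Primes beyond `y` with `f ≥ η` and large sum of reciprocals. -/
theorem exists_primes_large {f : ℕ → ℝ} (h0 : ∀ n, 0 ≤ f n)
    (hdiv : ¬ Summable (supportTerm f)) (y : ℕ) (B : ℝ) :
    ∃ (P : Finset ℕ) (η : ℝ), 0 < η ∧ (∀ p ∈ P, p.Prime ∧ y < p ∧ η ≤ f p) ∧
      B ≤ ∑ p ∈ P, (p : ℝ)⁻¹ := by
  have hnn : ∀ n, 0 ≤ supportTerm f n := fun n => by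
    unfold supportTerm
    split_ifs <;> positivity
  obtain ⟨n, hn⟩ := (((not_summable_iff_tendsto_nat_atTop_of_nonneg hnn).1 hdiv).eventually_ge_atTop
    (max B 0 + 1 + ∑ q ∈ range (y + 1), supportTerm f q)).exists
  obtain ⟨P, hP⟩ : ∃ P, P = (range n).filter fun p => y < p ∧ p.Prime ∧ f p ≠ 0 := ⟨_, rfl⟩
  have hsum : max B 0 + 1 ≤ ∑ p ∈ P, (p : ℝ)⁻¹ := by
    have h : ∑ q ∈ range n, supportTerm f q ≤
        ∑ q ∈ range (y + 1), supportTerm f q + ∑ p ∈ P, (p : ℝ)⁻¹ := by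
      rw [← sum_filter_add_sum_filter_not (range n) (fun q => q ≤ y)]
      refine add_le_add (sum_le_sum_of_subset_of_nonneg (fun q hq => ?_) fun q _ _ => hnn q) ?_
      · rw [mem_filter] at hq
        exact mem_range.2 (by omega)
      · rw [hP, sum_filter, sum_filter]
        refine sum_le_sum fun q _ => ?_
        unfold supportTerm
        by_cases h1 : q ≤ y
        · simp [h1, not_lt.2 h1]
        · by_cases h2 : q.Prime ∧ f q ≠ 0
          · simp [h1, h2, not_le.1 h1]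
          · simp [h1, h2]
    linarith
  have hne : P.Nonempty := nonempty_of_sum_ne_zero
    (ne_of_gt (lt_of_lt_of_le (by linarith [le_max_right B 0] : (0 : ℝ) < max B 0 + 1) hsum))
  refine ⟨P, (P.image f).min' (hne.image f), ?_, fun p hp => ?_, ?_⟩
  · obtain ⟨p, hp, he⟩ := mem_image.1 ((P.image f).min'_mem (hne.image f))
    rw [← he]
    rw [hP, mem_filter] at hp
    exact lt_of_le_of_ne (h0 p) (Ne.symm hp.2.2.2)
  · have hp' := hp
    rw [hP, mem_filter] at hp'
    exact ⟨hp'.2.2.1, hp'.2.1, min'_le _ _ (mem_image_of_mem f hp)⟩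
  · linarith [le_max_left B 0]

/-- **No concentration**: near every point the weight is small. -/
theorem exists_local_bound {f : ℕ → ℝ}
    (hadd : ∀ m n, m ≠ 0 → n ≠ 0 → Nat.Coprime m n → f (m * n) = f m + f n) (h0 : ∀ n, 0 ≤ f n)
    (hdiv : ¬ Summable (supportTerm f)) {ε : ℝ} (hε : 0 < ε) :
    ∃ δ : ℝ, 0 < δ ∧ ∃ M₁ : ℕ, M₁ ≠ 0 ∧ ∀ M : ℕ, M ≠ 0 → M₁ ∣ M → ∀ z : ℝ,
      divWeight M (fun d => |f d - z| ≤ δ) ≤ ε := by
  obtain ⟨B, hB⟩ := exists_window_bound (half_pos hε)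
  obtain ⟨y, hy1, hy⟩ : ∃ y : ℕ, 1 ≤ y ∧ 1 / (y : ℝ) ≤ ε / 2 :=
    ((eventually_ge_atTop 1).and
      ((tendsto_const_div_atTop_nhds_zero_nat (1 : ℝ)).eventually_le_const (half_pos hε))).exists
  obtain ⟨P, η, hη, hP, hPB⟩ := exists_primes_large h0 hdiv y B
  refine ⟨η / 3, by positivity, ∏ p ∈ P, p ^ 2,
    prod_ne_zero_iff.2 fun p hp => pow_ne_zero 2 (hP p hp).1.ne_zero, fun M hM hdvd z => ?_⟩
  have hPM : ∀ p ∈ P, p ^ 2 ∣ M := fun p hp => (dvd_prod_of_mem (fun q => q ^ 2) hp).trans hdvd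
  refine (divWeight_le_add (Q := fun d => |f d - z| ≤ η / 3 ∧ ∀ p ∈ P, ¬ p ^ 2 ∣ d)
    (R := fun d => ∃ p ∈ P, p ^ 2 ∣ d) fun d hd => ?_).trans ?_
  · by_cases h : ∃ p ∈ P, p ^ 2 ∣ d
    · exact Or.inr h
    · exact Or.inl ⟨hd, fun p hp hpd => h ⟨p, hp, hpd⟩⟩
  have h1 := hB f hadd P (fun p hp => (hP p hp).1) hPB (η / 3) z
    (fun p hp => by linarith [(hP p hp).2.2]) M hM hPM
  have h2 : divWeight M (fun d => ∃ p ∈ P, p ^ 2 ∣ d) ≤ ε / 2 := by
    have hle : divWeight M (fun d => ∃ p ∈ P, p ^ 2 ∣ d) ≤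
        ∑ p ∈ P, divWeight M (fun d => p ^ 2 ∣ d) := by
      unfold divWeight
      rw [← sum_div]
      refine div_le_div_of_nonneg_right ?_ (Nat.cast_nonneg M)
      simp only [sum_filter]
      rw [sum_comm (s := P)]
      refine sum_le_sum fun d _ => ?_
      split_ifs with h
      · obtain ⟨p, hp, hpd⟩ := h
        refine le_trans (le_of_eq ?_) (single_le_sum (fun q _ => ?_) hp)
        · rw [if_pos hpd]
        · split_ifs <;> positivity
      · exact sum_nonneg fun q _ => by split_ifs <;> positivity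
    refine hle.trans (le_trans ?_ hy)
    rw [sum_congr rfl fun p hp => divWeight_dvd hM (hPM p hp)]
    refine le_trans ?_ (sum_inv_sq_Ioc_le hy1 (P.sup id))
    push_cast
    simp only [one_div]
    exact sum_le_sum_of_subset_of_nonneg
      (fun p hp => mem_Ioc.2 ⟨(hP p hp).2.1, le_sup (f := id) hp⟩) fun q _ _ => by positivity
  linarith

/-- **The theorem of Erdős.** -/
theorem exists_distribution {f : ℕ → ℝ}
    (hadd : ∀ m n, m ≠ 0 → n ≠ 0 → Nat.Coprime m n → f (m * n) = f m + f n) (h0 : ∀ n, 0 ≤ f n)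
    (hs : Summable (primeTerm f)) (hdiv : ¬ Summable (supportTerm f)) :
    ∃ D : ℝ → ℝ, Continuous D ∧ Antitone D ∧
      ∀ x : ℝ, Tendsto (prop' fun n => x ≤ f n) atTop (𝓝 (D x)) := by
  have approx : ∀ ε : ℝ, 0 < ε → ∃ δ : ℝ, 0 < δ ∧ ∀ x : ℝ, ∃ G : ℝ, ∀ x' : ℝ, |x' - x| ≤ δ →
      ∀ᶠ N : ℕ in atTop, |prop' (fun n => x' ≤ f n) N - G| ≤ 4 * ε := by
    intro ε hε
    obtain ⟨δ, hδ, M₁, hM₁, hloc⟩ := exists_local_bound hadd h0 hdiv hε
    obtain ⟨M₀, hM₀, htr⟩ := exists_truncation hadd h0 hs hε (show 0 < δ / 4 by linarith)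
    obtain ⟨M, hM⟩ : ∃ M, M = M₀ * M₁ := ⟨_, rfl⟩
    have hM' : M ≠ 0 := hM ▸ mul_ne_zero hM₀ hM₁
    refine ⟨δ / 2, by linarith, fun x => ⟨divWeight M (fun d => x ≤ f d), fun x' hx' => ?_⟩⟩
    have hwin : divWeight M (fun d => |f d - x| ≤ δ) ≤ ε := hloc M hM' (hM ▸ dvd_mul_left _ _) x
    have hup : divWeight M (fun d => x' - δ / 4 ≤ f d) ≤ divWeight M (fun d => x ≤ f d) + ε := by
      refine (divWeight_le_add (Q := fun d => x ≤ f d) (R := fun d => |f d - x| ≤ δ)
        fun d hd => ?_).trans (add_le_add le_rfl hwin)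
      by_cases h : x ≤ f d
      · exact Or.inl h
      · refine Or.inr (abs_le.2 ⟨?_, ?_⟩) <;> linarith [(abs_le.1 hx').1]
    have hdown : divWeight M (fun d => x ≤ f d) ≤ divWeight M (fun d => x' + δ / 4 ≤ f d) + ε := by
      refine (divWeight_le_add (Q := fun d => x' + δ / 4 ≤ f d) (R := fun d => |f d - x| ≤ δ)
        fun d hd => ?_).trans (add_le_add le_rfl hwin)
      by_cases h : x' + δ / 4 ≤ f d
      · exact Or.inl h
      · refine Or.inr (abs_le.2 ⟨?_, ?_⟩) <;> linarith [(abs_le.1 hx').2]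
    filter_upwards [(tendsto_prop_gcd hM' fun d => x' - δ / 4 ≤ f d).eventually_le_const
      (show divWeight M (fun d => x' - δ / 4 ≤ f d) < divWeight M (fun d => x ≤ f d) + 2 * ε by
        linarith),
      (tendsto_prop_gcd hM' fun d => x' + δ / 4 ≤ f d).eventually_const_le
      (show divWeight M (fun d => x ≤ f d) - 2 * ε < divWeight M (fun d => x' + δ / 4 ≤ f d) by
        linarith), eventually_gt_atTop 0] with N h1 h2 hN
    have hN' : (0 : ℝ) < N := Nat.cast_pos.2 hN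
    have hbad := htr M hM' (hM ▸ dvd_mul_right _ _) N
    have c1 : prop' (fun n => x' ≤ f n) N ≤
        prop' (fun n => x' - δ / 4 ≤ f (Nat.gcd n M)) N + ε := by
      unfold prop'
      rw [div_add' _ _ _ hN'.ne']
      refine div_le_div_of_nonneg_right (le_trans ?_ (add_le_add le_rfl hbad)) hN'.le
      rw [← Nat.cast_add, Nat.cast_le]
      refine (card_le_card fun n hn => ?_).trans (card_union_le _ _)
      simp only [mem_union, mem_filter] at hn ⊢
      by_cases h : δ / 4 < |f n - f (Nat.gcd n M)|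
      · exact Or.inr ⟨hn.1, h⟩
      · exact Or.inl ⟨hn.1, by linarith [hn.2, (abs_le.1 (not_lt.1 h)).2]⟩
    have c2 : prop' (fun n => x' + δ / 4 ≤ f (Nat.gcd n M)) N ≤
        prop' (fun n => x' ≤ f n) N + ε := by
      unfold prop'
      rw [div_add' _ _ _ hN'.ne']
      refine div_le_div_of_nonneg_right (le_trans ?_ (add_le_add le_rfl hbad)) hN'.le
      rw [← Nat.cast_add, Nat.cast_le]
      refine (card_le_card fun n hn => ?_).trans (card_union_le _ _)
      simp only [mem_union, mem_filter] at hn ⊢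
      by_cases h : δ / 4 < |f n - f (Nat.gcd n M)|
      · exact Or.inr ⟨hn.1, h⟩
      · exact Or.inl ⟨hn.1, by linarith [hn.2, (abs_le.1 (not_lt.1 h)).1]⟩
    rw [abs_le]
    constructor <;> linarith
  have hcauchy : ∀ x : ℝ, CauchySeq (prop' fun n => x ≤ f n) := by
    intro x
    rw [Metric.cauchySeq_iff']
    intro e he
    obtain ⟨δ, hδ, h⟩ := approx (e / 9) (by positivity)
    obtain ⟨G, hG⟩ := h x
    obtain ⟨N₀, hN₀⟩ := eventually_atTop.1 (hG x (by simp [hδ.le]))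
    refine ⟨N₀, fun N hN => ?_⟩
    have h1 := abs_le.1 (hN₀ N hN)
    have h2 := abs_le.1 (hN₀ N₀ le_rfl)
    rw [Real.dist_eq, abs_lt]
    constructor <;> linarith
  choose D hD using fun x => cauchySeq_tendsto_of_complete (hcauchy x)
  refine ⟨D, ?_, fun x x' hxx' => ?_, hD⟩
  · refine Metric.continuous_iff.2 fun x e he => ?_
    obtain ⟨δ, hδ, h⟩ := approx (e / 9) (by positivity)
    obtain ⟨G, hG⟩ := h x
    refine ⟨δ, hδ, fun x' hx' => ?_⟩
    rw [Real.dist_eq] at hx'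
    have h1 : |D x' - G| ≤ 4 * (e / 9) :=
      le_of_tendsto (((hD x').sub_const G).abs) (hG x' hx'.le)
    have h2 : |D x - G| ≤ 4 * (e / 9) :=
      le_of_tendsto (((hD x).sub_const G).abs) (hG x (by simp [hδ.le]))
    rw [abs_le] at h1 h2
    rw [Real.dist_eq, abs_lt]
    constructor <;> linarith
  · refine le_of_tendsto_of_tendsto' (hD x') (hD x) fun N => ?_
    exact div_le_div_of_nonneg_right (Nat.cast_le.2 (card_le_card
      (monotone_filter_right _ fun n _ hn => hxx'.trans hn))) (Nat.cast_nonneg N)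

end FA.AdditiveDistribution
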