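import Mathlib.Analysis.SpecificLimits.Basic
import Mathlib.Data.Nat.Count
import Mathlib.Data.Nat.Totient
import Mathlib.Tactic

/-!
# Densities of conditions on `gcd (n, M)`

The density of `{n : P (gcd (n, M))}` is `∑_{d ∣ M, P d} φ (M / d) / M`.
-/

set_option autoImplicit false

noncomputable section

namespace FA.AdditiveDistribution

open Finset Filter
open scoped Topology Classical

/-- The proportion of `n` in `[1, N]` with `P n`. -/
def prop' (P : ℕ → Prop) (N : ℕ) : ℝ := (#((Icc 1 N).filter P) : ℝ) / N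

/-- The weight of a set of divisors of `M`. -/
def divWeight (M : ℕ) (P : ℕ → Prop) : ℝ :=
  (∑ d ∈ M.divisors.filter P, (Nat.totient (M / d) : ℝ)) / M

theorem divWeight_nonneg (M : ℕ) (P : ℕ → Prop) : 0 ≤ divWeight M P := by
  unfold divWeight
  positivity

theorem divWeight_mono {M : ℕ} {P Q : ℕ → Prop} (h : ∀ d, P d → Q d) :
    divWeight M P ≤ divWeight M Q :=
  div_le_div_of_nonneg_right (sum_le_sum_of_subset_of_nonneg
    (monotone_filter_right _ (fun d _ hd => h d hd)) fun _ _ _ => Nat.cast_nonneg _)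
    (Nat.cast_nonneg M)

theorem divWeight_le_add {M : ℕ} {P Q R : ℕ → Prop} (h : ∀ d, P d → Q d ∨ R d) :
    divWeight M P ≤ divWeight M Q + divWeight M R := by
  unfold divWeight
  rw [← add_div]
  refine div_le_div_of_nonneg_right ?_ (Nat.cast_nonneg M)
  refine le_trans (sum_le_sum_of_subset_of_nonneg
    (t := M.divisors.filter Q ∪ M.divisors.filter R) (fun d hd => ?_)
    fun _ _ _ => Nat.cast_nonneg _) ?_
  · rw [mem_filter] at hd
    rw [mem_union, mem_filter, mem_filter]
    exact (h d hd.2).imp (fun hq => ⟨hd.1, hq⟩) fun hr => ⟨hd.1, hr⟩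
  · rw [← sum_union_inter]
    exact le_add_of_nonneg_right (by positivity)

theorem count_gcd_period {M : ℕ} (hM : M ≠ 0) (P : ℕ → Prop) :
    Nat.count (fun n => P (Nat.gcd n M)) M = ∑ d ∈ M.divisors.filter P, Nat.totient (M / d) := by
  rw [Nat.count_eq_card_filter_range, card_eq_sum_card_fiberwise (f := fun n => Nat.gcd n M)
    (t := M.divisors.filter P) fun n hn => ?_]
  · refine sum_congr rfl fun d hd => ?_
    rw [mem_filter, Nat.mem_divisors] at hd
    rw [Nat.totient_div_of_dvd hd.1.1, filter_filter]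
    congr 1
    refine filter_congr fun n _ => ?_
    rw [Nat.gcd_comm M n]
    exact ⟨fun h => h.2, fun h => ⟨h ▸ hd.2, h⟩⟩
  · simp only [mem_coe, mem_filter] at hn
    exact mem_coe.2 (mem_filter.2 ⟨Nat.mem_divisors.2 ⟨Nat.gcd_dvd_right n M, hM⟩, hn.2⟩)

/-- The weight of the multiples of `c` is `1 / c`. -/
theorem divWeight_dvd {M c : ℕ} (hM : M ≠ 0) (hc : c ∣ M) :
    divWeight M (c ∣ ·) = 1 / c := by
  obtain ⟨P, hP⟩ : ∃ P : ℕ → Prop, P = fun d => c ∣ d := ⟨_, rfl⟩
  rw [← hP]
  have h : Nat.count (fun n => P (Nat.gcd n M)) M = M / c := by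
    rw [Nat.count_eq_card_filter_range]
    obtain ⟨q, rfl⟩ := hc
    rw [mul_ne_zero_iff] at hM
    rw [Nat.mul_div_cancel_left _ (Nat.pos_of_ne_zero hM.1)]
    conv_rhs => rw [← card_range q]
    refine (card_nbij' (fun i => c * i) (fun n => n / c) ?_ ?_ ?_ ?_).symm
    · intro i hi
      rw [mem_coe, mem_range] at hi
      simp only [hP, mem_coe, mem_filter, mem_range]
      exact ⟨Nat.mul_lt_mul_of_pos_left hi (Nat.pos_of_ne_zero hM.1),
        Nat.dvd_gcd (dvd_mul_right c i) (dvd_mul_right c q)⟩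
    · intro n hn
      simp only [hP, mem_coe, mem_filter, mem_range] at hn
      rw [mem_coe, mem_range]
      exact Nat.div_lt_of_lt_mul hn.1
    · intro i _
      exact Nat.mul_div_cancel_left i (Nat.pos_of_ne_zero hM.1)
    · intro n hn
      simp only [hP, mem_coe, mem_filter] at hn
      exact Nat.mul_div_cancel' (hn.2.trans (Nat.gcd_dvd_left n _))
  rw [count_gcd_period hM] at h
  rw [divWeight, ← Nat.cast_sum, h, Nat.cast_div_charZero hc]
  have : (M : ℝ) ≠ 0 := Nat.cast_ne_zero.2 hM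
  field_simp

/-- **The density.** -/
theorem tendsto_prop_gcd {M : ℕ} (hM : M ≠ 0) (P : ℕ → Prop) :
    Tendsto (prop' fun n => P (Nat.gcd n M)) atTop (𝓝 (divWeight M P)) := by
  obtain ⟨c, hc⟩ : ∃ c, c = Nat.count (fun n => P (Nat.gcd n M)) M := ⟨_, rfl⟩
  have hcval : (c : ℝ) / M = divWeight M P := by
    rw [hc, count_gcd_period hM, divWeight, Nat.cast_sum]
  have hper : ∀ q r, Nat.count (fun n => P (Nat.gcd n M)) (M * q + r) =
      c * q + Nat.count (fun n => P (Nat.gcd n M)) r := by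
    intro q r
    induction q with
    | zero => simp
    | succ q ih =>
      rw [show M * (q + 1) + r = M + (M * q + r) by ring, Nat.count_add, ← hc]
      have : (fun k => P (Nat.gcd (M + k) M)) = fun n => P (Nat.gcd n M) :=
        funext fun k => by rw [Nat.gcd_self_add_left]
      simp only [this, ih]
      ring
  have hIcc : ∀ N, (Nat.count (fun n => P (Nat.gcd n M)) (N + 1) : ℝ) - 1 ≤
      #((Icc 1 N).filter fun n => P (Nat.gcd n M)) ∧
      (#((Icc 1 N).filter fun n => P (Nat.gcd n M)) : ℝ) ≤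
        Nat.count (fun n => P (Nat.gcd n M)) (N + 1) := by
    intro N
    rw [Nat.count_eq_card_filter_range]
    refine ⟨?_, Nat.cast_le.2 (card_le_card fun n hn => ?_)⟩
    · rw [sub_le_iff_le_add]
      norm_cast
      refine (card_le_card (t := insert 0 ((Icc 1 N).filter fun n => P (Nat.gcd n M)))
        fun n hn => ?_).trans (card_insert_le _ _)
      simp only [mem_filter, mem_range] at hn
      rcases Nat.eq_zero_or_pos n with rfl | h
      · exact mem_insert_self _ _
      · exact mem_insert_of_mem (mem_filter.2 ⟨mem_Icc.2 ⟨h, by omega⟩, hn.2⟩)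
    · simp only [mem_filter, mem_Icc] at hn
      exact mem_filter.2 ⟨mem_range.2 (by omega), hn.2⟩
  have hbd : ∀ N, |(#((Icc 1 N).filter fun n => P (Nat.gcd n M)) : ℝ) - divWeight M P * N| ≤
      M + 2 := by
    intro N
    have h := hper ((N + 1) / M) ((N + 1) % M)
    rw [Nat.div_add_mod] at h
    have hr : Nat.count (fun n => P (Nat.gcd n M)) ((N + 1) % M) ≤ (N + 1) % M := (Nat.count_le _)
    have hcM : (c : ℝ) ≤ M := Nat.cast_le.2 (hc ▸ (Nat.count_le _))
    have hM' : (0 : ℝ) < M := Nat.cast_pos.2 (Nat.pos_of_ne_zero hM)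
    have e1 : (c : ℝ) * (((N + 1) / M : ℕ) : ℝ) =
        divWeight M P * ((N : ℝ) + 1 - (((N + 1) % M : ℕ) : ℝ)) := by
      rw [← hcval]
      have : ((M : ℝ) * (((N + 1) / M : ℕ) : ℝ)) + (((N + 1) % M : ℕ) : ℝ) = (N : ℝ) + 1 := by
        exact_mod_cast Nat.div_add_mod (N + 1) M
      field_simp
      linear_combination (c : ℝ) * this
    have hcount : (Nat.count (fun n => P (Nat.gcd n M)) (N + 1) : ℝ) =
        c * (((N + 1) / M : ℕ) : ℝ) + Nat.count (fun n => P (Nat.gcd n M)) ((N + 1) % M) := by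
      exact_mod_cast h
    have hr' : (((N + 1) % M : ℕ) : ℝ) ≤ M - 1 := by
      rw [le_sub_iff_add_le]
      exact_mod_cast Nat.mod_lt (N + 1) (Nat.pos_of_ne_zero hM)
    have hcnt : (Nat.count (fun n => P (Nat.gcd n M)) ((N + 1) % M) : ℝ) ≤ M - 1 :=
      (Nat.cast_le.2 hr).trans hr'
    have hw : divWeight M P ≤ 1 := by
      rw [← hcval, div_le_one hM']
      exact hcM
    have hw0 := divWeight_nonneg M P
    obtain ⟨h1, h2⟩ := hIcc N
    rw [abs_le]
    have h3 : 0 ≤ (((N + 1) % M : ℕ) : ℝ) := Nat.cast_nonneg _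
    have h4 : 0 ≤ (Nat.count (fun n => P (Nat.gcd n M)) ((N + 1) % M) : ℝ) := Nat.cast_nonneg _
    constructor
    · nlinarith [mul_le_mul_of_nonneg_right hw h3]
    · nlinarith
  rw [tendsto_iff_dist_tendsto_zero]
  refine squeeze_zero' (Eventually.of_forall fun N => dist_nonneg) ?_
    (tendsto_const_div_atTop_nhds_zero_nat ((M : ℝ) + 2))
  filter_upwards [eventually_gt_atTop 0] with N hN
  have hN' : (0 : ℝ) < N := Nat.cast_pos.2 hN
  rw [Real.dist_eq, prop', div_sub' hN'.ne', abs_div, abs_of_pos hN', mul_comm (N : ℝ)]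
  exact div_le_div_of_nonneg_right (hbd N) hN'.le

end FA.AdditiveDistribution
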